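/-
S59lib / PS5 / Geom  (helper6) — Project I, block PSTEP, brick PS5 (Eichler–Shimura at `ℓ = p`).

**The `p`-adic filtration of `J₀(N)[p^n]` at a prime `p ∤ N` of good reduction.**  `K` := the `p^n`-torsion
of the kernel of the reduction map `reductionModL A N` at a place `A ∣ p`.  Then
* `K` is inertia-stable, and `(σ - 1) J₀(N)[p^n] ⊆ K` for `σ` in the inertia group;
* `(φ² - T_p φ + p) J₀(N)[p^n] ⊆ K` for every Frobenius element `φ` at `A` (Eichler–Shimura on the special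
  fibre, `S37lib`: its construction needs `ℓ ∤ N` only);
* `K` has no non-zero subquotient with trivial inertia action (it carries a connected Hopf order:
  `S15lib.exists_germ_ker`, `S33lib.Germ.exists_connected_hopfOrder`, `S33lib.Conn.connStmt`).
Everything is assembled from main.
-/
import Fermat.Agent.S15lib.Germ
import Fermat.Agent.S33lib.Germ.PFilt
import Fermat.Agent.S33lib.Conn.Main
import Fermat.Agent.S29lib.GH.Local

set_option autoImplicit false
set_option linter.unusedSectionVars false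
set_option linter.style.haveILetI false

noncomputable section

namespace Fermat.Agent.S59lib.PS5

open Fermat.Agent.S19lib Fermat.Agent.S33lib ModularCurve AlgebraicCurve

local notation "Qb" => AlgebraicClosure ℚ
local notation "GQ" => (AlgebraicClosure ℚ ≃ₐ[ℚ] AlgebraicClosure ℚ)

/-- **the filtration at a good prime.** -/
theorem exists_kernel (N : ℕ) [NeZero N] (p : ℕ) (hp : p.Prime) (hp2 : p ≠ 2) (hpN : ¬ p ∣ N)
    (A : ValuationSubring Qb) (hA : A.LiesOverPrime p) (n : ℕ) :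
    ∃ K : AddSubgroup (JZero N), K ≤ tors N ((p : ℤ) ^ n) ∧
      (∀ σ ∈ IA A, ∀ x ∈ K, σ • x ∈ K) ∧
      (∀ σ ∈ IA A, ∀ x ∈ tors N ((p : ℤ) ^ n), σ • x - x ∈ K) ∧
      (∀ φ : GQ, A.IsFrobeniusAt φ p → ∀ x ∈ tors N ((p : ℤ) ^ n),
        φ • φ • x - heckeOperatorBar N ⟨p, hp⟩ (φ • x) + (p : ℤ) • x ∈ K) ∧
      NoTrivSubquotIn A K := by
  haveI : Fact p.Prime := ⟨hp⟩
  obtain ⟨G, -, hGK⟩ := Fermat.Agent.S15lib.exists_germ_ker N p hpN A hA
  obtain ⟨-, Fr, hinert, hfrob, hES⟩ := Fermat.Agent.S29lib.GH.inputs N p hp hpN A hA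
  have hm : ((p : ℤ) ^ n) ≠ 0 := pow_ne_zero _ (by exact_mod_cast hp.ne_zero)
  set K : AddSubgroup (JZero N) := G.K ⊓ tors N ((p : ℤ) ^ n) with hK
  have hKle : K ≤ tors N ((p : ℤ) ^ n) := inf_le_right
  have hKG : K ≤ G.K := inf_le_left
  have hst : ∀ σ ∈ IA A, ∀ x ∈ K, σ • x ∈ K := by
    intro σ hσ x hx
    refine ⟨G.smul_mem σ ?_ x hx.1, Fermat.Agent.S19lib.T.smul_mem_tors N σ hx.2⟩
    obtain ⟨τ, -, rfl⟩ := Subgroup.mem_map.1 hσ
    exact τ.2
  refine ⟨K, hKle, hst, ?_, ?_, ?_⟩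
  · intro σ hσ x hx
    refine ⟨(hGK _).2 ?_, AddSubgroup.sub_mem _ (Fermat.Agent.S19lib.T.smul_mem_tors N σ hx) hx⟩
    rw [map_sub, hinert σ hσ x, sub_self]
  · intro φ hφ x hx
    have hT : heckeOperatorBar N ⟨p, hp⟩ (φ • x) ∈ tors N ((p : ℤ) ^ n) := by
      rw [Fermat.Agent.S19lib.T.mem_tors_iff] at hx ⊢
      rw [← map_zsmul, ← Fermat.Agent.S29lib.galois_smul_zsmul, hx]
      rw [show φ • (0 : JZero N) = 0 from
        (DistribSMul.toAddMonoidHom (JZero N) φ).map_zero, map_zero]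
    refine ⟨(hGK _).2 ?_, AddSubgroup.add_mem _ (AddSubgroup.sub_mem _
      (Fermat.Agent.S19lib.T.smul_mem_tors N φ (Fermat.Agent.S19lib.T.smul_mem_tors N φ hx)) hT)
      (AddSubgroup.zsmul_mem _ hx _)⟩
    rw [map_add, map_sub, Fermat.Agent.S29lib.GH.heckeOperatorBar_galois N ⟨p, hp⟩ φ x,
      hfrob φ hφ, hfrob φ hφ, hfrob φ hφ, hES x, map_zsmul, natCast_zsmul]
    abel
  · have : Finite K := Fermat.Agent.S33lib.Germ.finite_of_le_tors hm hKle
    obtain ⟨O, hO⟩ := Fermat.Agent.S33lib.Germ.exists_connected_hopfOrder hA G K hKG hst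
    refine Fermat.Agent.S33lib.Conn.connStmt p hp hp2 A hA _ K n ?_ hst O hO
    intro x hx
    have h1 : ((p : ℤ) ^ n) • x = 0 := (Fermat.Agent.S19lib.T.mem_tors_iff N).1 (hKle hx)
    rw [← h1, ← natCast_zsmul]
    push_cast
    rfl

end Fermat.Agent.S59lib.PS5

end
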