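/-
S59lib / PS5 / Setup  (helper6) — Project I, block PSTEP, brick PS5.

**The per-character piece, with the Hecke eigen-property made visible.**  Re-issue of
`S32lib.exists_adic_lattice_matrix` and `S32lib.exists_piece_setup` (helper8) which additionally export
that the basis vectors `w j` of the rank-2 lattice are eigenvectors of the lattice Hecke matrix
`Cd.t ⟨p, hp⟩` with eigenvalue `χ' (T_p)`; the eigen-system is the one of a character `χ'` of the Hecke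
algebra away from a set `S' ∌ p` which agrees with `ψ ∘ H.π` on the `T_ℓ`, `ℓ ∉ S`.
-/
import Fermat.Agent.S32lib.Lat.Setup

set_option autoImplicit false
set_option linter.unusedSectionVars false
set_option linter.style.haveILetI false

noncomputable section

namespace Fermat.Agent.S59lib.PS5

open IsLocalRing Matrix Polynomial Fermat.Agent.S31lib.RG Fermat.Agent.S29lib
  Fermat.Agent.S29lib.E Fermat.Agent.S29lib.S30 Fermat.Agent.S29lib.Dvr CuspForm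
  Fermat.Agent.S32lib

/-- `ℚ̄` -/
local notation "Qb" => AlgebraicClosure ℚ
/-- `G_ℚ` -/
local notation "GQ" => (AlgebraicClosure ℚ ≃ₐ[ℚ] AlgebraicClosure ℚ)

section main

variable {G I : Type} [Monoid G] {p r : ℕ} (𝒯 : TorsionSystem G I p r)

/-- the adic lattice, matrix form inside `O^r`, with the eigen-property of the basis. -/
theorem exists_adic_lattice_matrix_eig
    (O : Type) [CommRing O] [IsDomain O] [IsDiscreteValuationRing O]
    [IsAdicComplete (IsLocalRing.maximalIdeal O) O] (hpO : (p : O) ∈ IsLocalRing.maximalIdeal O)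
    (a : I → O) {L : Type} [Field L] (emb : O →+* L) (hemb : Function.Injective emb)
    (hfin : Module.finrank L ↥(⨅ i, LinearMap.ker
      (Matrix.toLin' ((𝒯.t i).map (Int.cast : ℤ → L)) - emb (a i) • 1)) = 2) :
    ∃ (w : Fin 2 → (Fin r → O)) (Mw : G →* Matrix (Fin 2) (Fin 2) O),
      LinearIndependent O w ∧
      (∀ (σ : G) (j : Fin 2), galMatO 𝒯 (IsLocalRing.maximalIdeal O) hpO σ *ᵥ w j =
        ∑ i, Mw σ i j • w i) ∧
      (∀ (k : ℕ) (σ : G), (∀ x : 𝒯.T k, 𝒯.act k σ x = x) →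
        ∀ i j, (Mw σ - 1) i j ∈ IsLocalRing.maximalIdeal O ^ k) ∧
      (∀ (σ : G) (i : I) (n : ℕ),
        (∀ k, ∀ x : 𝒯.T k, 𝒯.act k σ (𝒯.act k σ x) - 𝒯.tj k i (𝒯.act k σ x) + n • x = 0) →
        Mw σ * Mw σ - a i • Mw σ + (n : O) • (1 : Matrix (Fin 2) (Fin 2) O) = 0) ∧
      (∀ (i : I) (j : Fin 2), (𝒯.t i).map (Int.cast : ℤ → O) *ᵥ w j = a i • w j) := by
  classical
  obtain ⟨ρ, hfree, hfinite, hrank, hρ, hcont, -, hfrob⟩ :=
    exists_adic_lattice_coe 𝒯 O hpO a emb hemb hfin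
  let b : Module.Basis (Fin 2) O ↥(kerO (eigMatO 𝒯 a)) :=
    Module.finBasisOfFinrankEq O ↥(kerO (eigMatO 𝒯 a)) hrank
  let Φ : Module.End O ↥(kerO (eigMatO 𝒯 a)) ≃ₐ[O] Matrix (Fin 2) (Fin 2) O :=
    LinearMap.toMatrixAlgEquiv b
  let Mw : G →* Matrix (Fin 2) (Fin 2) O :=
    (Φ : Module.End O ↥(kerO (eigMatO 𝒯 a)) →* Matrix (Fin 2) (Fin 2) O).comp ρ
  have hMw : ∀ σ, Mw σ = Φ (ρ σ) := fun σ => rfl
  refine ⟨fun j => ((b j : ↥(kerO (eigMatO 𝒯 a))) : Fin r → O), Mw, ?_, ?_, ?_, ?_, ?_⟩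
  · have := b.linearIndependent.map' (kerO (eigMatO 𝒯 a)).subtype (Submodule.ker_subtype _)
    exact this
  · intro σ j
    rw [← hρ σ (b j)]
    have h1 : ρ σ (b j) = ∑ i, Mw σ i j • b i := by
      have := b.sum_repr (ρ σ (b j))
      rw [← this]
      refine Finset.sum_congr rfl fun i _ => ?_
      rw [hMw]
      change _ = LinearMap.toMatrixAlgEquiv b (ρ σ) i j • b i
      rw [LinearMap.toMatrixAlgEquiv_apply]
    rw [h1, Submodule.coe_sum]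
    rfl
  · intro k σ hσ i j
    have h1 : (Mw σ - 1) i j = b.repr (ρ σ (b j) - b j) i := by
      rw [hMw, ← map_one Φ, ← map_sub]
      show LinearMap.toMatrixAlgEquiv b (ρ σ - 1) i j = _
      rw [LinearMap.toMatrixAlgEquiv_apply, LinearMap.sub_apply, Module.End.one_apply]
    rw [h1]
    exact Fermat.Agent.S29lib.S30.repr_mem_of_mem_smul_top b _ (hcont k σ hσ (b j)) i
  · intro σ i n h
    have h0 := hfrob σ i n h
    rw [hMw]
    generalize a i = c at h0 ⊢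
    have h1 : Φ (ρ σ * ρ σ - c • ρ σ + (n : O) • 1) = 0 := by rw [h0, map_zero]
    have e1 := map_add Φ (ρ σ * ρ σ - c • ρ σ) ((n : O) • 1)
    have e2 := map_sub Φ (ρ σ * ρ σ) (c • ρ σ)
    have e3 := map_mul Φ (ρ σ) (ρ σ)
    have e4 := map_smul Φ c (ρ σ)
    have e5 := map_smul Φ (n : O) (1 : Module.End O ↥(kerO (eigMatO 𝒯 a)))
    have e6 := map_one Φ
    rw [e1, e2, e3, e4, e5, e6] at h1
    exact h1
  · intro i j
    have h1 := (mem_kerO (eigMatO 𝒯 a)).mp (b j).2 i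
    rw [eigMatO, Matrix.sub_mulVec, Matrix.smul_mulVec, Matrix.one_mulVec, sub_eq_zero] at h1
    exact h1

end main

variable {p : ℕ} {N : ℕ} [NeZero N] {S : Finset ℕ}
  {𝒪 : Type} [CommRing 𝒪] [IsDomain 𝒪] [IsDiscreteValuationRing 𝒪]
  [IsAdicComplete (IsLocalRing.maximalIdeal 𝒪) 𝒪]
  {θ : CuspForm.heckeAlgebra N 2 (↑S : Set ℕ) →+* IsLocalRing.ResidueField 𝒪}
  {T : Type} [CommRing T] [IsLocalRing T] [IsNoetherianRing T]
  [IsAdicComplete (IsLocalRing.maximalIdeal T) T] [Algebra 𝒪 T] [IsLocalHom (algebraMap 𝒪 T)]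
  [Module.Finite 𝒪 T] [Module.Free 𝒪 T]

/-- **the arithmetic set-up of the per-character piece, with `T_p`.** -/
theorem exists_piece_setup_eig
    (hp : p.Prime) (hp𝒪 : (p : 𝒪) ∈ IsLocalRing.maximalIdeal 𝒪) (hpN : ¬ p ∣ N)
    (hpS : p ∈ S) (hNS : ∀ q : ℕ, q.Prime → q ∣ N → q ∈ S)
    (H : CuspForm.HeckeGaloisRepDatum N (↑S : Set ℕ) 𝒪 θ T)
    (b : Module.Basis (Fin 2) T H.ρ.V)
    {O₁ : Type} [CommRing O₁] [IsDomain O₁] [IsDiscreteValuationRing O₁]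
    [IsAdicComplete (maximalIdeal O₁) O₁] [Finite (ResidueField O₁)] [CharZero O₁]
    [Algebra 𝒪 O₁] [IsLocalHom (algebraMap 𝒪 O₁)] (ψ : T →ₐ[𝒪] O₁)
    (S' : Set ℕ) (hS' : S' ⊆ (↑S : Set ℕ)) (hpS' : p ∉ S')
    (χ' : CuspForm.heckeAlgebra N 2 S' →+* O₁)
    (hχ' : ∀ (ℓ : ℕ) (hℓ : ℓ.Prime) (hℓN : ¬ ℓ ∣ N) (hℓS : ℓ ∉ (↑S : Set ℕ)),
      χ' (CuspForm.heckeAlgebra.T hℓ hℓN (fun h => hℓS (hS' h))) =
        ψ (H.π (CuspForm.heckeAlgebra.T hℓ hℓN hℓS))) :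
    ∃ (O₂ : Type) (_ : CommRing O₂) (_ : IsDomain O₂) (_ : IsDiscreteValuationRing O₂)
      (_ : IsAdicComplete (maximalIdeal O₂) O₂) (_ : Finite (ResidueField O₂)) (_ : CharZero O₂)
      (_ : Algebra O₁ O₂) (_ : Module.Finite O₁ O₂) (_ : IsLocalHom (algebraMap O₁ O₂)),
      Function.Injective (algebraMap O₁ O₂) ∧
      ∃ (Cd : ComparisonData N p) (hpO₂ : (p : O₂) ∈ maximalIdeal O₂)
        (w : Fin 2 → (Fin Cd.r → O₂)) (Mw : GQ →* Matrix (Fin 2) (Fin 2) O₂),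
        LinearIndependent O₂ w ∧
        (∀ (σ : GQ) (j : Fin 2),
          galMatO (torsionSystemOf Cd) (maximalIdeal O₂) hpO₂ σ *ᵥ w j = ∑ i, Mw σ i j • w i) ∧
        (∀ σ : GQ, Mw σ * Mw σ -
          ((matOf H.ρ b σ).map ((algebraMap O₁ O₂).comp (ψ : T →+* O₁))).trace • Mw σ +
          ((matOf H.ρ b σ).map ((algebraMap O₁ O₂).comp (ψ : T →+* O₁))).det •
            (1 : Matrix (Fin 2) (Fin 2) O₂) = 0) ∧
        ∀ j : Fin 2, (Cd.t ⟨p, hp⟩).map (Int.cast : ℤ → O₂) *ᵥ w j =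
          algebraMap O₁ O₂ (χ' (CuspForm.heckeAlgebra.T hp hpN hpS')) • w j := by
  classical
  -- comparison data, eigen input, local data
  obtain ⟨Cd, hCg⟩ := Fermat.Agent.S29lib.Z.compStatement N p hp
  have hL : LocalData N p := GH.localData_of_comparisonData Cd hp.ne_zero
  -- the eigen data of the character `χ'`
  obtain ⟨K₁, hfd, a₁, hfinL, ha₁⟩ := exists_eigen_data Cd hCg S' O₁ χ'
  haveI := hfd
  obtain ⟨i1, i2, i3, i4, i5, hfin1, hloc1, hinj1⟩ :=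
    exists_dvr_structure O₁ (FractionRing O₁) K₁
  have hpO₁ : (p : O₁) ∈ maximalIdeal O₁ := by
    have h1 : (p : O₁) = algebraMap 𝒪 O₁ (p : 𝒪) := (map_natCast _ p).symm
    rw [h1]
    exact map_nonunit (algebraMap 𝒪 O₁) _ hp𝒪
  have hpO₂ : (p : OL O₁ K₁) ∈ maximalIdeal (OL O₁ K₁) := by
    have h1 : (p : OL O₁ K₁) = algebraMap O₁ (OL O₁ K₁) (p : O₁) := (map_natCast _ p).symm
    rw [h1]
    exact map_nonunit (algebraMap O₁ (OL O₁ K₁)) _ hpO₁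
  refine ⟨OL O₁ K₁, inferInstance, i1, i2, i3, i4, i5, inferInstance, hfin1, hloc1, hinj1,
    Cd, hpO₂, ?_⟩
  -- the lattice in matrix form
  obtain ⟨w, Mw, hli, hact, hcont, hfrob, heig⟩ :=
    exists_adic_lattice_matrix_eig (torsionSystemOf Cd) (OL O₁ K₁) hpO₂ a₁
      (algebraMap (OL O₁ K₁) K₁) Subtype.val_injective hfinL
  refine ⟨w, Mw, hli, hact, ?_, ?_⟩
  swap
  · intro j
    have h1 := heig ⟨p, hp⟩ j
    rw [ha₁ p hp hpN hpS'] at h1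
    exact h1
  -- the ring hom `ψ₂ : T → O₂` and the pushed representation
  let ψ₂ : T →+* OL O₁ K₁ := (algebraMap O₁ (OL O₁ K₁)).comp (ψ : T →+* O₁)
  have hψ₂ : ∀ t ∈ maximalIdeal T, ψ₂ t ∈ maximalIdeal (OL O₁ K₁) := by
    intro t ht
    have h1 : ψ t ∈ maximalIdeal O₁ := algHom_mem_maximalIdeal ψ ht
    exact map_nonunit (algebraMap O₁ (OL O₁ K₁)) _ h1
  let ρ' : GQ →* Matrix (Fin 2) (Fin 2) (OL O₁ K₁) :=
    (ψ₂.mapMatrix : Matrix (Fin 2) (Fin 2) T →+* Matrix (Fin 2) (Fin 2) (OL O₁ K₁)).toMonoidHom.comp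
      (matOf H.ρ b)
  have hρ' : ∀ σ, ρ' σ = (matOf H.ρ b σ).map ψ₂ := fun σ => rfl
  -- good primes
  let good : ℕ → Prop := fun ℓ => ℓ.Prime ∧ ¬ ℓ ∣ N ∧ ℓ ∉ (↑S : Set ℕ)
  let a : ℕ → OL O₁ K₁ := fun ℓ => if h : ℓ.Prime then a₁ ⟨ℓ, h⟩ else 0
  have hgoodNp : ∀ ℓ, good ℓ → ¬ ℓ ∣ N * p := by
    intro ℓ hℓ h
    rcases (Nat.Prime.dvd_mul hℓ.1).mp h with h | h
    · exact hℓ.2.1 h
    · have : ℓ = p := (Nat.prime_dvd_prime_iff_eq hℓ.1 hp).mp h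
      exact hℓ.2.2 (this ▸ Finset.mem_coe.mpr hpS)
  have key := quad_of_frobenius (maximalIdeal (OL O₁ K₁)) Mw ρ' ?_ ?_ good a ?_ ?_
    (Fermat.Agent.S31lib.WC.brickWC_good good S ?_)
  · intro σ
    have := key σ
    rw [hρ' σ] at this
    exact this
  · -- continuity of `Mw`
    intro n
    obtain ⟨L', hL', hLfix⟩ := hL.finiteLevel n
    exact ⟨L', hL', fun σ hσ i j => hcont n σ
      (fun (x : Tors N (p ^ n)) => Subtype.ext (hLfix σ hσ (x : ModularCurve.JZero N) x.2)) i j⟩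
  · -- continuity of `ρ'`
    intro n
    exact map_matOf_continuous H.ρ b ψ₂ hψ₂ n
  · -- the Frobenius relation for `Mw`
    intro ℓ hℓ A hA φ hφ
    have hℓNp := hgoodNp ℓ hℓ
    have h0 := hfrob φ ⟨ℓ, hℓ.1⟩ ℓ (fun k (x : Tors N (p ^ k)) => by
      apply frob_tors Cd k φ ⟨ℓ, hℓ.1⟩ x
      have h1 := hL.frob ℓ hℓ.1 hℓNp A hA φ hφ k (x : ModularCurve.JZero N) x.2
      rw [Cd.TJ_good ⟨ℓ, hℓ.1⟩ hℓ.2.1, ← natCast_zsmul]
      exact h1)
    have ha : a ℓ = a₁ ⟨ℓ, hℓ.1⟩ := dif_pos hℓ.1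
    rw [ha]
    exact h0
  · -- trace and determinant of `ρ'` at Frobenius
    intro ℓ hℓ A hA φ hφ
    have h1 := H.charpoly_frob ℓ hℓ.1 hℓ.2.1 hℓ.2.2 A hA φ hφ
    obtain ⟨ht, hd⟩ := trace_det_matOf_of_charpoly H.ρ b φ h1
    have ha : a ℓ = a₁ ⟨ℓ, hℓ.1⟩ := dif_pos hℓ.1
    constructor
    · rw [hρ' φ, ha, ha₁ ℓ hℓ.1 hℓ.2.1 (fun h => hℓ.2.2 (hS' h)), hχ' ℓ hℓ.1 hℓ.2.1 hℓ.2.2]
      have : ((matOf H.ρ b φ).map ψ₂).trace = ψ₂ (matOf H.ρ b φ).trace := by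
        rw [Matrix.trace_fin_two, Matrix.trace_fin_two, map_add]
        rfl
      rw [this, ht]
      rfl
    · rw [hρ' φ]
      have : ((matOf H.ρ b φ).map ψ₂).det = ψ₂ (matOf H.ρ b φ).det := by
        rw [Matrix.det_fin_two, Matrix.det_fin_two, map_sub, map_mul, map_mul]
        rfl
      rw [this, hd, map_natCast]
  · -- cofiniteness of the good primes
    intro ℓ hℓ hℓS
    refine ⟨hℓ, fun hℓN => hℓS (hNS ℓ hℓ hℓN), fun h => hℓS (Finset.mem_coe.mp h)⟩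

end Fermat.Agent.S59lib.PS5

end
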