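/-
S59lib / PS5 / Transfer  (helper6) — Project I, block PSTEP, brick PS5.

**Transfer of the filtration to `(O/𝔞)^r`** along the presentation `S33lib.Lat.pmap`
(`(J[p^n])^{O/𝔞} → (O/𝔞)^r`, Galois- and Hecke-equivariant): with `imgK` the image of the tuples with
entries in `K`,
* `(σ - 1) y ∈ imgK` for `σ` in the inertia group,
* `(φ² - T_p φ + p) y ∈ imgK` for a Frobenius element `φ`,
for every `y ∈ (O/𝔞)^r`.
-/
import Fermat.Agent.S33lib.Lat.Main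

set_option autoImplicit false
set_option linter.unusedSectionVars false
set_option linter.style.haveILetI false

noncomputable section

namespace Fermat.Agent.S59lib.PS5

open IsLocalRing Matrix Fermat.Agent.S29lib Fermat.Agent.S29lib.E Fermat.Agent.S29lib.S30
  Fermat.Agent.S32lib Fermat.Agent.S19lib Fermat.Agent.S33lib.Lat

/-- `ℚ̄` -/
local notation "Qb" => AlgebraicClosure ℚ
/-- `G_ℚ` -/
local notation "GQ" => (AlgebraicClosure ℚ ≃ₐ[ℚ] AlgebraicClosure ℚ)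

variable {N p : ℕ} [NeZero N] (C : ComparisonData N p)
  {O : Type} [CommRing O] [IsLocalRing O] [IsAdicComplete (IsLocalRing.maximalIdeal O) O]
  (hpO : (p : O) ∈ IsLocalRing.maximalIdeal O)
  (𝔞 : Ideal O) [Fintype (O ⧸ 𝔞)] (n : ℕ) (hn : IsLocalRing.maximalIdeal O ^ n ≤ 𝔞)
  (A : ValuationSubring Qb) (K : AddSubgroup (ModularCurve.JZero N))

/-- the lattice Hecke matrix modulo `𝔞`. -/
def tQuot (ℓ : Nat.Primes) : Matrix (Fin C.r) (Fin C.r) (O ⧸ 𝔞) :=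
  (C.t ℓ).map (Int.cast : ℤ → O ⧸ 𝔞)

/-- `pmap` is Hecke-equivariant. -/
theorem pmap_hecke (ℓ : Nat.Primes) (x : (O ⧸ 𝔞) → Tors N (p ^ n)) :
    pmap C hpO 𝔞 n hn (fun c => tjTors C n ℓ (x c)) =
      tQuot C 𝔞 ℓ *ᵥ (pmap C hpO 𝔞 n hn x) := by
  funext i
  have lhs : pmap C hpO 𝔞 n hn (fun c => tjTors C n ℓ (x c)) i =
      ∑ c : O ⧸ 𝔞, c * thetaQ hpO 𝔞 n hn (((tMat C n ℓ) *ᵥ (C.κ n (x c))) i) := by
    rw [pmap_apply]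
    refine Finset.sum_congr rfl fun c _ => ?_
    rw [κ_tjTors]
  have rhs : (tQuot C 𝔞 ℓ *ᵥ (pmap C hpO 𝔞 n hn x)) i =
      ∑ l, thetaQ hpO 𝔞 n hn (tMat C n ℓ i l) *
        ∑ c : O ⧸ 𝔞, c * thetaQ hpO 𝔞 n hn (C.κ n (x c) l) := by
    rw [Matrix.mulVec, dotProduct]
    refine Finset.sum_congr rfl fun l _ => ?_
    rw [pmap_apply]
    congr 1
    simp only [tQuot, tMat, Matrix.map_apply, map_intCast]
  refine lhs.trans (Eq.trans ?_ rhs.symm)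
  simp only [Matrix.mulVec, dotProduct, map_sum, map_mul, Finset.mul_sum]
  rw [Finset.sum_comm]
  refine Finset.sum_congr rfl fun l _ => Finset.sum_congr rfl fun c _ => ?_
  ring

/-- **inertia transferred**: `(σ - 1) y ∈ imgK` for every `y ∈ (O/𝔞)^r`. -/
theorem sub_mem_imgK
    (hI : ∀ σ ∈ IA A, ∀ x ∈ tors N ((p : ℤ) ^ n), σ • x - x ∈ K)
    {σ : GQ} (hσ : σ ∈ IA A) (y : Fin C.r → O ⧸ 𝔞) :
    actQuot C hpO 𝔞 σ y - y ∈ imgK C hpO 𝔞 n hn K := by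
  obtain ⟨m₀, rfl⟩ := pmap_surjective C hpO 𝔞 n hn y
  obtain ⟨mσ, hmσ⟩ : ∃ m : (O ⧸ 𝔞) → Tors N (p ^ n),
      m = (fun c => galTors (p ^ n) σ (m₀ c)) - m₀ := ⟨_, rfl⟩
  have h1 : pmap C hpO 𝔞 n hn mσ =
      actQuot C hpO 𝔞 σ (pmap C hpO 𝔞 n hn m₀) - pmap C hpO 𝔞 n hn m₀ := by
    rw [← pmap_equivariant, ← map_sub, ← hmσ]
  refine ⟨mσ, ?_, h1⟩
  intro c
  have e3 : mσ c = galTors (p ^ n) σ (m₀ c) - m₀ c := by
    rw [hmσ]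
    rfl
  rw [e3, Submodule.coe_sub, coe_galTors]
  exact hI σ hσ _ (coe_mem_tors p n (m₀ c))

/-- **Eichler–Shimura transferred**: `(φ² - T_ℓ φ + ℓ) y ∈ imgK` for every `y ∈ (O/𝔞)^r`. -/
theorem frob_mem_imgK (ℓ : Nat.Primes) (e : ℤ) {φ : GQ}
    (hES : ∀ x ∈ tors N ((p : ℤ) ^ n), φ • φ • x - C.TJ ℓ (φ • x) + e • x ∈ K)
    (y : Fin C.r → O ⧸ 𝔞) :
    actQuot C hpO 𝔞 φ (actQuot C hpO 𝔞 φ y) - tQuot C 𝔞 ℓ *ᵥ (actQuot C hpO 𝔞 φ y) + e • y ∈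
      imgK C hpO 𝔞 n hn K := by
  obtain ⟨m₀, rfl⟩ := pmap_surjective C hpO 𝔞 n hn y
  obtain ⟨m₁, hm₁⟩ : ∃ m : (O ⧸ 𝔞) → Tors N (p ^ n),
      m = (fun c => galTors (p ^ n) φ (m₀ c)) := ⟨_, rfl⟩
  obtain ⟨m₂, hm₂⟩ : ∃ m : (O ⧸ 𝔞) → Tors N (p ^ n),
      m = (fun c => galTors (p ^ n) φ (m₁ c)) := ⟨_, rfl⟩
  obtain ⟨m₃, hm₃⟩ : ∃ m : (O ⧸ 𝔞) → Tors N (p ^ n),
      m = (fun c => tjTors C n ℓ (m₁ c)) := ⟨_, rfl⟩
  have h1 : pmap C hpO 𝔞 n hn m₁ = actQuot C hpO 𝔞 φ (pmap C hpO 𝔞 n hn m₀) := by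
    rw [hm₁, pmap_equivariant]
  have h2 : pmap C hpO 𝔞 n hn m₂ =
      actQuot C hpO 𝔞 φ (actQuot C hpO 𝔞 φ (pmap C hpO 𝔞 n hn m₀)) := by
    rw [hm₂, pmap_equivariant, h1]
  have h3 : pmap C hpO 𝔞 n hn m₃ =
      tQuot C 𝔞 ℓ *ᵥ (actQuot C hpO 𝔞 φ (pmap C hpO 𝔞 n hn m₀)) := by
    rw [hm₃, pmap_hecke, h1]
  refine ⟨m₂ - m₃ + e • m₀, ?_, ?_⟩
  · intro c
    have e3 : (m₂ - m₃ + e • m₀) c =
        galTors (p ^ n) φ (galTors (p ^ n) φ (m₀ c)) -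
          tjTors C n ℓ (galTors (p ^ n) φ (m₀ c)) + e • m₀ c := by
      rw [hm₂, hm₃, hm₁]
      rfl
    rw [e3, Submodule.coe_add, Submodule.coe_sub, coe_galTors, coe_galTors, Submodule.coe_smul]
    exact hES _ (coe_mem_tors p n (m₀ c))
  · rw [map_add, map_sub, map_zsmul, h2, h3]

end Fermat.Agent.S59lib.PS5

end
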