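/-
S59lib / PS5 / Main  (helper6) — Project I, block PSTEP, brick PS5.

**Eichler–Shimura at `ℓ = p` for an ordinary point of level prime to `p`: `u₀² − t_p u₀ + p = 0`.**

`H` a Hecke–Galois datum of level `N`, `p ∤ N` odd, `ψ : T → O₁` a character, `T ∙ b 0` an ordinary line of
`H.ρ` at a place `A ∣ p`, `φ` a Frobenius element at `A` acting on `V / T b 0` through `z ∈ T`.  For every
character `χ'` of the Hecke algebra away from a set `S' ∌ p` extending `ψ ∘ H.π`: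
`ψ z ^ 2 - χ' (T_p) * ψ z + p = 0`.

Proof (the `S33lib/Lat` machine): `Λ = U(O₂²) ⊆ O₂^r = T_p J₀(N) ⊗ O₂` the `ψ`-lattice (`PS5/Setup`), on which
`T_p` acts by `t_p = χ' (T_p)`.  If `c = u₀² − t_p u₀ + p ≠ 0` then, in the ordinary basis,
`c e Λ ⊆ (φ² − T_p φ + p) Λ + (σ₀ − 1) Λ` (`e = det ρ(σ₀) − 1` a unit, `σ₀` in the inertia group), whose image
modulo `p^a` lies in `imgK` (`PS5/Transfer`: Eichler–Shimura on the special fibre and inertia-invariance of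
the reduction map, `PS5/Geom`), a group without trivial-inertia subquotients; but inertia acts trivially on
`Λ / L₀`: `S33lib.Lat.false_of_square` with `μ = (0, 1)`.
-/
import Fermat.Agent.S59lib.PS5.Geom
import Fermat.Agent.S59lib.PS5.Setup
import Fermat.Agent.S59lib.PS5.Transfer
import Fermat.Agent.S33lib.TLevel.Det

set_option autoImplicit false
set_option linter.unusedSectionVars false
set_option linter.style.haveILetI false

noncomputable section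

namespace Fermat.Agent.S59lib.PS5

open IsLocalRing Matrix Fermat.Agent.S31lib.RG Fermat.Agent.S31lib.TC Fermat.Agent.S29lib
  Fermat.Agent.S29lib.E Fermat.Agent.S29lib.S30 Fermat.Agent.S32lib Fermat.Agent.S19lib
  Fermat.Agent.S33lib Fermat.Agent.S33lib.Lat Fermat.Agent.S33lib.Conn CuspForm

/-- `ℚ̄` -/
local notation "Qb" => AlgebraicClosure ℚ
/-- `G_ℚ` -/
local notation "GQ" => (AlgebraicClosure ℚ ≃ₐ[ℚ] AlgebraicClosure ℚ)

/-! ### `2 × 2` algebra -/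

/-- the decomposition `c e x = P(X) v + (Y - 1) v'` for `X`, `Y` upper triangular, `Y₁₁ = 1`. -/
theorem core_decomp {O₂ : Type*} [CommRing O₂] (X Y : Matrix (Fin 2) (Fin 2) O₂)
    (hX : X 1 0 = 0) (hY0 : Y 1 0 = 0) (hY1 : Y 1 1 = 1) (tp q : O₂) (x : Fin 2 → O₂) :
    ∃ v v' : Fin 2 → O₂,
      ((X 1 1 ^ 2 - tp * X 1 1 + q) * (Y 0 0 - 1)) • x =
        (X *ᵥ (X *ᵥ v) - tp • (X *ᵥ v) + q • v) + (Y *ᵥ v' - v') := by
  refine ⟨![0, (Y 0 0 - 1) * x 1],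
    ![(X 1 1 ^ 2 - tp * X 1 1 + q) * x 0 - X 0 1 * (X 0 0 + X 1 1 - tp) * x 1, 0], ?_⟩
  funext i
  fin_cases i
  · simp only [Fin.zero_eta, Pi.smul_apply, Pi.add_apply, Pi.sub_apply, Matrix.mulVec, dotProduct,
      Fin.sum_univ_two, Matrix.cons_val_zero, Matrix.cons_val_one, smul_eq_mul, Fin.isValue]
    rw [hX]
    ring
  · simp only [Fin.mk_one, Pi.smul_apply, Pi.add_apply, Pi.sub_apply, Matrix.mulVec, dotProduct,
      Fin.sum_univ_two, Matrix.cons_val_zero, Matrix.cons_val_one, smul_eq_mul, Fin.isValue]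
    rw [hX, hY0, hY1]
    ring

/-- reduction of vectors commutes with `mulVec`. -/
theorem mkVec_mulVec {O : Type*} [CommRing O] (𝔞 : Ideal O) {r : ℕ}
    (M : Matrix (Fin r) (Fin r) O) (v : Fin r → O) :
    (fun i => Ideal.Quotient.mk 𝔞 ((M *ᵥ v) i)) =
      M.map (Ideal.Quotient.mk 𝔞) *ᵥ (fun i => Ideal.Quotient.mk 𝔞 (v i)) :=
  funext fun i => RingHom.map_mulVec (Ideal.Quotient.mk 𝔞) M v i

/-! ### ordinary shape of the matrices -/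

section shape

variable {T : Type} [CommRing T] [IsLocalRing T] (ρ : GaloisRepAdic T)
  (b : Module.Basis (Fin 2) T ρ.V)

theorem repr_one_eq_zero_of_mem {v : ρ.V} (hv : v ∈ (T ∙ b 0 : Submodule T ρ.V)) :
    b.repr v 1 = 0 := by
  obtain ⟨t, rfl⟩ := Submodule.mem_span_singleton.1 hv
  rw [map_smul, Finsupp.smul_apply, Module.Basis.repr_self, Finsupp.single_apply]
  simp

theorem matOf_one_eq (σ : GQ) (j : Fin 2) (y : T)
    (h : ρ.ρ σ (b j) - y • b j ∈ (T ∙ b 0 : Submodule T ρ.V)) :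
    matOf ρ b σ 1 j = y * (1 : Matrix (Fin 2) (Fin 2) T) 1 j := by
  have h1 := repr_one_eq_zero_of_mem ρ b h
  rw [map_sub, map_smul, Finsupp.sub_apply, Finsupp.smul_apply, Module.Basis.repr_self,
    Finsupp.single_apply, sub_eq_zero] at h1
  rw [matOf_apply, LinearMap.toMatrix_apply, h1, Matrix.one_apply, smul_eq_mul]
  congr 1
  by_cases hj : j = 1
  · subst hj; simp
  · rw [if_neg hj, if_neg (Ne.symm hj)]

end shape

variable {p : ℕ} {N : ℕ} [NeZero N] {S : Finset ℕ}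
  {𝒪 : Type} [CommRing 𝒪] [IsDomain 𝒪] [IsDiscreteValuationRing 𝒪]
  [IsAdicComplete (IsLocalRing.maximalIdeal 𝒪) 𝒪]
  {θ : CuspForm.heckeAlgebra N 2 (↑S : Set ℕ) →+* IsLocalRing.ResidueField 𝒪}
  {T : Type} [CommRing T] [IsLocalRing T] [IsNoetherianRing T]
  [IsAdicComplete (IsLocalRing.maximalIdeal T) T] [Algebra 𝒪 T] [IsLocalHom (algebraMap 𝒪 T)]
  [Module.Finite 𝒪 T] [Module.Free 𝒪 T]

set_option maxHeartbeats 1000000 in
/-- **PS5: the unit root.** -/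
theorem unitRoot_eq [Finite (IsLocalRing.ResidueField 𝒪)] [CharZero 𝒪]
    (hp : p.Prime) (hp2 : p ≠ 2) (hp𝒪 : (p : 𝒪) ∈ IsLocalRing.maximalIdeal 𝒪) (hpN : ¬ p ∣ N)
    (hpS : p ∈ S) (hNS : ∀ q : ℕ, q.Prime → q ∣ N → q ∈ S)
    (H : CuspForm.HeckeGaloisRepDatum N (↑S : Set ℕ) 𝒪 θ T)
    (b : Module.Basis (Fin 2) T H.ρ.V)
    {O₁ : Type} [CommRing O₁] [IsDomain O₁] [IsDiscreteValuationRing O₁]
    [IsAdicComplete (maximalIdeal O₁) O₁] [Finite (ResidueField O₁)] [CharZero O₁]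
    [Algebra 𝒪 O₁] [IsLocalHom (algebraMap 𝒪 O₁)] (ψ : T →ₐ[𝒪] O₁)
    (S' : Set ℕ) (hS' : S' ⊆ (↑S : Set ℕ)) (hpS' : p ∉ S')
    (χ' : CuspForm.heckeAlgebra N 2 S' →+* O₁)
    (hχ' : ∀ (ℓ : ℕ) (hℓ : ℓ.Prime) (hℓN : ¬ ℓ ∣ N) (hℓS : ℓ ∉ (↑S : Set ℕ)),
      χ' (CuspForm.heckeAlgebra.T hℓ hℓN (fun h => hℓS (hS' h))) =
        ψ (H.π (CuspForm.heckeAlgebra.T hℓ hℓN hℓS)))
    (A : ValuationSubring Qb) (hA : A.LiesOverPrime p)
    (hI : ∀ σ ∈ A.inertiaSubgroupIn ℚ, ∀ v : H.ρ.V,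
      H.ρ.ρ σ v - v ∈ (T ∙ b 0 : Submodule T H.ρ.V))
    (φ : GQ) (hφ : A.IsFrobeniusAt φ p)
    (hφ0 : H.ρ.ρ φ (b 0) ∈ (T ∙ b 0 : Submodule T H.ρ.V))
    (z : T) (hz : H.ρ.ρ φ (b 1) - z • b 1 ∈ (T ∙ b 0 : Submodule T H.ρ.V)) :
    ψ z ^ 2 - χ' (CuspForm.heckeAlgebra.T hp hpN hpS') * ψ z + (p : O₁) = 0 := by
  classical
  by_contra hne
  obtain ⟨O₂, i1, i2, i3, i4, i5, i6, i7, i8, i9, hinj, Cd, hpO₂, w, Mw, hli, hact, hquad, heig⟩ :=
    exists_piece_setup_eig hp hp𝒪 hpN hpS hNS H b ψ S' hS' hpS' χ' hχ'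
  obtain ⟨Pm, hPdet, hPm⟩ := exists_intertwiner H.ρ b H.residual_absIrr
    ((algebraMap O₁ O₂).comp (ψ : T →+* O₁)) Mw hquad
  -- notation
  let ψ₂ : T →+* O₂ := (algebraMap O₁ O₂).comp (ψ : T →+* O₁)
  let R : GQ → Matrix (Fin 2) (Fin 2) O₂ := fun σ => (matOf H.ρ b σ).map ψ₂
  let Gact : GQ → Matrix (Fin Cd.r) (Fin Cd.r) O₂ :=
    fun σ => galMatO (torsionSystemOf Cd) (maximalIdeal O₂) hpO₂ σ
  let I : Set GQ := {σ | σ ∈ A.inertiaSubgroupIn ℚ}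
  let tp : O₂ := algebraMap O₁ O₂ (χ' (CuspForm.heckeAlgebra.T hp hpN hpS'))
  let tM : Matrix (Fin Cd.r) (Fin Cd.r) O₂ := (Cd.t ⟨p, hp⟩).map (Int.cast : ℤ → O₂)
  have hRapp : ∀ σ i j, R σ i j = ψ₂ (matOf H.ρ b σ i j) := fun σ i j => rfl
  -- the shape of `R` on inertia and at `φ`
  have hI1 : ∀ σ ∈ I, ∀ j : Fin 2, (R σ - 1) 1 j = 0 := by
    intro σ hσ j
    have h1 : H.ρ.ρ σ (b j) - (1 : T) • b j ∈ (T ∙ b 0 : Submodule T H.ρ.V) := by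
      rw [one_smul]
      exact hI σ hσ (b j)
    have h2 := matOf_one_eq H.ρ b σ j 1 h1
    rw [one_mul] at h2
    rw [Matrix.sub_apply, hRapp, h2, Matrix.one_apply, Matrix.one_apply]
    split_ifs <;> simp
  have hφ10 : R φ 1 0 = 0 := by
    have h1 : H.ρ.ρ φ (b 0) - (0 : T) • b 0 ∈ (T ∙ b 0 : Submodule T H.ρ.V) := by
      rw [zero_smul, sub_zero]
      exact hφ0
    have h2 := matOf_one_eq H.ρ b φ 0 0 h1
    rw [zero_mul] at h2
    rw [hRapp, h2, map_zero]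
  have hφ11 : R φ 1 1 = ψ₂ z := by
    have h2 := matOf_one_eq H.ρ b φ 1 z hz
    rw [Matrix.one_apply_eq, mul_one] at h2
    rw [hRapp, h2]
  -- the inertia element `σ₀`
  obtain ⟨σ₀, hσ₀, hdet₀⟩ :=
    Fermat.Agent.S33lib.TLevel.exists_inertia_det_sub_one_notMem_datum hp hp2 hp𝒪 H A hA
  have hσ₀10 : R σ₀ 1 0 = 0 := by
    have := hI1 σ₀ hσ₀ 0
    rw [Matrix.sub_apply, Matrix.one_apply_ne (by decide), sub_zero] at this
    exact this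
  have hσ₀11 : R σ₀ 1 1 = 1 := by
    have := hI1 σ₀ hσ₀ 1
    rw [Matrix.sub_apply, Matrix.one_apply_eq, sub_eq_zero] at this
    exact this
  have hm10 : matOf H.ρ b σ₀ 1 0 = 0 := by
    have h1 : H.ρ.ρ σ₀ (b 0) - (1 : T) • b 0 ∈ (T ∙ b 0 : Submodule T H.ρ.V) := by
      rw [one_smul]
      exact hI σ₀ hσ₀ (b 0)
    have h2 := matOf_one_eq H.ρ b σ₀ 0 1 h1
    rw [one_mul, Matrix.one_apply_ne (by decide)] at h2
    exact h2
  have hm11 : matOf H.ρ b σ₀ 1 1 = 1 := by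
    have h1 : H.ρ.ρ σ₀ (b 1) - (1 : T) • b 1 ∈ (T ∙ b 0 : Submodule T H.ρ.V) := by
      rw [one_smul]
      exact hI σ₀ hσ₀ (b 1)
    have h2 := matOf_one_eq H.ρ b σ₀ 1 1 h1
    rw [one_mul, Matrix.one_apply_eq] at h2
    exact h2
  have hdetm : LinearMap.det (H.ρ.ρ σ₀) = matOf H.ρ b σ₀ 0 0 := by
    rw [← LinearMap.det_toMatrix b, ← matOf_apply, Matrix.det_fin_two, hm10, hm11]
    ring
  have heu : IsUnit (R σ₀ 0 0 - 1) := by
    have h1 : IsUnit (matOf H.ρ b σ₀ 0 0 - 1) := by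
      rw [← hdetm]
      by_contra hnu
      exact hdet₀ ((IsLocalRing.mem_maximalIdeal _).mpr (mem_nonunits_iff.mpr hnu))
    have h2 := h1.map ψ₂
    rw [map_sub, map_one] at h2
    exact h2
  -- the non-zero constant
  have hc0 : R φ 1 1 ^ 2 - tp * R φ 1 1 + (p : O₂) ≠ 0 := by
    intro h0
    apply hne
    apply hinj
    rw [map_zero, map_add, map_sub, map_mul, map_pow, map_natCast]
    rw [hφ11] at h0
    exact h0
  have hd0 : (R φ 1 1 ^ 2 - tp * R φ 1 1 + (p : O₂)) * (R σ₀ 0 0 - 1) ≠ 0 :=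
    mul_ne_zero hc0 heu.ne_zero
  -- the functional `μ = (0, 1)`
  let μ : Fin 2 → O₂ := ![0, 1]
  have hμu : ∃ k, IsUnit (μ k) := ⟨1, by simp [μ]⟩
  have hμ : ∀ σ ∈ I, ∀ j : Fin 2, ∑ k, μ k * (R σ - 1) k j ∈ maximalIdeal O₂ := by
    intro σ hσ j
    rw [Fin.sum_univ_two]
    simp only [μ, Matrix.cons_val_zero, Matrix.cons_val_one, zero_mul, one_mul, zero_add]
    rw [hI1 σ hσ j]
    exact Ideal.zero_mem _
  -- the linear map `U`
  have hU : ∀ (σ : GQ) (x : Fin 2 → O₂), Gact σ *ᵥ umap w Pm x = umap w Pm (R σ *ᵥ x) :=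
    umap_equivariant w Pm Gact (fun σ => Mw σ) R hact (fun σ => hPm σ)
  have hUT : ∀ x : Fin 2 → O₂, tM *ᵥ umap w Pm x = tp • umap w Pm x := by
    intro x
    rw [umap_apply, Matrix.mulVec_sum, Finset.smul_sum]
    refine Finset.sum_congr rfl fun i _ => ?_
    rw [Matrix.mulVec_smul, heig i, smul_comm]
  -- the level
  have hp0 : (p : O₂) ≠ 0 := Nat.cast_ne_zero.mpr hp.ne_zero
  obtain ⟨a, hsat⟩ := exists_pow_sat w Pm hli hPdet hd0 hp0 hpO₂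
  have hpa0 : (p : O₂) ^ a ≠ 0 := pow_ne_zero _ hp0
  obtain ⟨n, hn⟩ := exists_pow_le_span hpa0
  haveI : Finite (O₂ ⧸ maximalIdeal O₂) := inferInstanceAs (Finite (ResidueField O₂))
  haveI : Finite (O₂ ⧸ maximalIdeal O₂ ^ n) :=
    Ideal.finite_quotient_pow (IsNoetherian.noetherian _) n
  haveI : Finite (O₂ ⧸ Ideal.span {(p : O₂) ^ a}) :=
    Finite.of_surjective (Ideal.Quotient.factor hn) (Ideal.Quotient.factor_surjective hn)
  haveI : Fintype (O₂ ⧸ Ideal.span {(p : O₂) ^ a}) := Fintype.ofFinite _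
  -- the filtration at level `n`
  obtain ⟨K, hKle, hKst, hKI, hKES, hKno⟩ := exists_kernel N p hp hp2 hpN A hA n
  have hKES' : ∀ x ∈ tors N ((p : ℤ) ^ n),
      φ • φ • x - Cd.TJ ⟨p, hp⟩ (φ • x) + (p : ℤ) • x ∈ K := by
    intro x hx
    rw [Cd.TJ_good ⟨p, hp⟩ hpN]
    exact hKES φ hφ x hx
  set 𝔞 : Ideal O₂ := Ideal.span {(p : O₂) ^ a} with h𝔞
  have htQ : tM.map (Ideal.Quotient.mk 𝔞) = tQuot Cd 𝔞 ⟨p, hp⟩ := by
    ext i j
    simp [tM, tQuot]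
  refine false_of_square I (umap w Pm) Gact R hU μ hμu hμ
    ((R φ 1 1 ^ 2 - tp * R φ 1 1 + (p : O₂)) * (R σ₀ 0 0 - 1)) 𝔞 hsat
    (imgK Cd hpO₂ 𝔞 n hn K) ?_ ?_
  · -- all `U (d x)` are in `imgK`
    intro x
    obtain ⟨v, v', hvv⟩ := core_decomp (R φ) (R σ₀) hφ10 hσ₀10 hσ₀11 tp (p : O₂) x
    rw [hvv]
    -- the two pieces
    have e1 : umap w Pm (R φ *ᵥ (R φ *ᵥ v) - tp • (R φ *ᵥ v) + (p : O₂) • v) =
        Gact φ *ᵥ (Gact φ *ᵥ umap w Pm v) - tM *ᵥ (Gact φ *ᵥ umap w Pm v) +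
          (p : O₂) • umap w Pm v := by
      rw [map_add, map_sub, map_smul, map_smul, ← hU, ← hU, hU φ v, hUT, ← hU]
    have e2 : umap w Pm (R σ₀ *ᵥ v' - v') = Gact σ₀ *ᵥ umap w Pm v' - umap w Pm v' := by
      rw [map_sub, ← hU]
    have e3 : (fun i => Ideal.Quotient.mk 𝔞 (umap w Pm
        ((R φ *ᵥ (R φ *ᵥ v) - tp • (R φ *ᵥ v) + (p : O₂) • v) + (R σ₀ *ᵥ v' - v')) i)) =
        (actQuot Cd hpO₂ 𝔞 φ (actQuot Cd hpO₂ 𝔞 φ
            (fun i => Ideal.Quotient.mk 𝔞 (umap w Pm v i))) -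
          tQuot Cd 𝔞 ⟨p, hp⟩ *ᵥ (actQuot Cd hpO₂ 𝔞 φ
            (fun i => Ideal.Quotient.mk 𝔞 (umap w Pm v i))) +
          (p : ℤ) • (fun i => Ideal.Quotient.mk 𝔞 (umap w Pm v i))) +
        (actQuot Cd hpO₂ 𝔞 σ₀ (fun i => Ideal.Quotient.mk 𝔞 (umap w Pm v' i)) -
          (fun i => Ideal.Quotient.mk 𝔞 (umap w Pm v' i))) := by
      rw [map_add, e1, e2]
      unfold actQuot
      rw [← htQ, ← mkVec_mulVec, ← mkVec_mulVec, ← mkVec_mulVec, ← mkVec_mulVec]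
      funext i
      simp only [Pi.add_apply, Pi.sub_apply, Pi.smul_apply, map_add, map_sub, smul_eq_mul,
        map_mul, map_natCast, zsmul_eq_mul, Int.cast_natCast, Pi.mul_apply, Pi.natCast_apply]
      rfl
    rw [e3]
    exact AddSubgroup.add_mem _
      (frob_mem_imgK Cd hpO₂ 𝔞 n hn K ⟨p, hp⟩ (p : ℤ) hKES' _)
      (sub_mem_imgK Cd hpO₂ 𝔞 n hn A K hKI hσ₀ _)
  · -- no trivial subquotient inside `imgK`
    intro Γ'' Γ' hle hΓ' hst'' hst' htriv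
    exact noTrivSubquot_imgK Cd hpO₂ 𝔞 n hn A K hKno hKst Γ'' Γ' hle hΓ' hst'' hst' htriv

end Fermat.Agent.S59lib.PS5

end
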